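/-
S25 (Jacobian), interface-free commutative algebra used by packages A0 and SC0:
a domain which is locally standard smooth of relative dimension one over an algebraically
closed field is a Dedekind domain; its maximal ideals have residue field `k`.
Author: helper4790.
-/
import Mathlib

set_option autoImplicit false
set_option linter.style.haveILetI false

universe u

namespace Fermat.Agent.S25.CONN.Fac.SmDed

open TensorProduct KaehlerDifferential

/-- Nullstellensatz: the residue field at a maximal ideal of a finitely generated algebra over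
an algebraically closed field is the base field. -/
theorem algebraMap_quotient_bijective (k : Type u) [Field k] [IsAlgClosed k] (A : Type u)
    [CommRing A] [Algebra k A] [Algebra.FiniteType k A] (𝔪 : Ideal A) [𝔪.IsMaximal] :
    Function.Bijective (algebraMap k (A ⧸ 𝔪)) := by
  letI : Field (A ⧸ 𝔪) := Ideal.Quotient.field 𝔪
  haveI : Algebra.FiniteType k (A ⧸ 𝔪) :=
    Algebra.FiniteType.of_surjective (Ideal.Quotient.mkₐ k 𝔪) (Ideal.Quotient.mkₐ_surjective k 𝔪)
  haveI : Module.Finite k (A ⧸ 𝔪) := finite_of_finite_type_of_isJacobsonRing k (A ⧸ 𝔪)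
  exact IsAlgClosed.algebraMap_bijective_of_isIntegral

/-- The cotangent space at a closed point of a smooth curve is generated by one element. -/
theorem exists_cotangent_generator (k : Type u) [Field k] [IsAlgClosed k] (A : Type u)
    [CommRing A] [Algebra k A] [Algebra.FiniteType k A] [Algebra.FormallySmooth k A]
    (𝔪 : Ideal A) [𝔪.IsMaximal] (t : A) (ht : t ∉ 𝔪)
    [Algebra.IsStandardSmoothOfRelativeDimension 1 k (Localization.Away t)] :
    ∃ π ∈ 𝔪, ∀ x ∈ 𝔪, ∃ a : A, x - a * π ∈ 𝔪 ^ 2 := by
  classical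
  have htu : IsUnit (Ideal.Quotient.mk 𝔪 t) := by
    letI : Field (A ⧸ 𝔪) := Ideal.Quotient.field 𝔪
    exact IsUnit.mk0 _ (fun h => ht (Ideal.Quotient.eq_zero_iff_mem.mp h))
  haveI : Nontrivial (Localization.Away t) :=
    (IsLocalization.Away.lift (S := Localization.Away t) t htu).domain_nontrivial
  haveI : Algebra.IsStandardSmooth k (Localization.Away t) :=
    Algebra.IsStandardSmoothOfRelativeDimension.isStandardSmooth 1
  have hrank : Module.rank (Localization.Away t) Ω[Localization.Away t⁄k] = 1 := by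
    simpa using Algebra.IsStandardSmoothOfRelativeDimension.rank_kaehlerDifferential
      (R := k) (S := Localization.Away t) 1
  obtain ⟨ω₀, -, hω₀⟩ := rank_eq_one_iff.mp hrank
  haveI : IsLocalizedModule (Submonoid.powers t)
      (KaehlerDifferential.map k k A (Localization.Away t)) :=
    KaehlerDifferential.isLocalizedModule_map k A (Localization.Away t) (Submonoid.powers t)
  obtain ⟨⟨ω, ⟨_, n, rfl⟩⟩, hω⟩ := IsLocalizedModule.surj (Submonoid.powers t)
    (KaehlerDifferential.map k k A (Localization.Away t)) ω₀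
  have key : ∀ ω' : Ω[A⁄k], ∃ (N : ℕ) (a : A), t ^ N • ω' = a • ω := by
    intro ω'
    obtain ⟨b, hb⟩ := hω₀ (KaehlerDifferential.map k k A (Localization.Away t) ω')
    obtain ⟨m, a', ha'⟩ := IsLocalization.Away.surj t b
    have h1 : KaehlerDifferential.map k k A (Localization.Away t) (t ^ (m + n) • ω') =
        KaehlerDifferential.map k k A (Localization.Away t) (a' • ω) := by
      rw [map_smul, map_smul, ← hb, ← hω]
      simp only [Submonoid.smul_def]
      rw [← algebraMap_smul (Localization.Away t) (t ^ (m + n)),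
        ← algebraMap_smul (Localization.Away t) a', ← algebraMap_smul (Localization.Away t) (t ^ n),
        smul_smul, smul_smul, ← ha']
      congr 1
      simp only [map_pow]
      ring
    obtain ⟨⟨_, j, rfl⟩, hc⟩ := IsLocalizedModule.exists_of_eq (S := Submonoid.powers t) h1
    refine ⟨j + (m + n), t ^ j * a', ?_⟩
    simp only [Submonoid.smul_def] at hc
    rw [pow_add, mul_smul, mul_smul]
    exact hc
  have hbij := algebraMap_quotient_bijective k A 𝔪
  haveI : Algebra.FormallySmooth k (A ⧸ 𝔪) :=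
    Algebra.FormallySmooth.of_equiv (AlgEquiv.ofBijective (Algebra.ofId k (A ⧸ 𝔪)) hbij)
  have hsurj : Function.Surjective (algebraMap A (A ⧸ 𝔪)) := Ideal.Quotient.mk_surjective
  obtain ⟨l, hl⟩ := (Algebra.FormallySmooth.iff_split_injection (R := k) (P := A) (A := A ⧸ 𝔪)
    hsurj).mp inferInstance
  have hker : RingHom.ker (algebraMap A (A ⧸ 𝔪)) = 𝔪 := Ideal.mk_ker
  have h1tmul : ∀ z : (A ⧸ 𝔪) ⊗[A] Ω[A⁄k], ∃ ω', z = (1 : A ⧸ 𝔪) ⊗ₜ[A] ω' := by
    intro z
    induction z using TensorProduct.induction_on with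
    | zero => exact ⟨0, by simp⟩
    | tmul c w =>
      obtain ⟨a, rfl⟩ := hsurj c
      refine ⟨a • w, ?_⟩
      rw [TensorProduct.tmul_smul, TensorProduct.smul_tmul', Algebra.smul_def, mul_one]
    | add z₁ z₂ h₁ h₂ =>
      obtain ⟨w₁, rfl⟩ := h₁
      obtain ⟨w₂, rfl⟩ := h₂
      exact ⟨w₁ + w₂, by rw [TensorProduct.tmul_add]⟩
  obtain ⟨π, hπ⟩ := Ideal.toCotangent_surjective (RingHom.ker (algebraMap A (A ⧸ 𝔪)))
    (l ((1 : A ⧸ 𝔪) ⊗ₜ[A] ω))
  refine ⟨π.1, hker.le π.2, fun x hx => ?_⟩
  have hxI : x ∈ RingHom.ker (algebraMap A (A ⧸ 𝔪)) := hker.ge hx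
  obtain ⟨ω', hω'⟩ := h1tmul (kerCotangentToTensor k A (A ⧸ 𝔪)
    ((RingHom.ker (algebraMap A (A ⧸ 𝔪))).toCotangent ⟨x, hxI⟩))
  obtain ⟨N, a, hNa⟩ := key ω'
  have h2 : t ^ N • (RingHom.ker (algebraMap A (A ⧸ 𝔪))).toCotangent ⟨x, hxI⟩ =
      a • (RingHom.ker (algebraMap A (A ⧸ 𝔪))).toCotangent π := by
    have h := congrArg l (show t ^ N • (kerCotangentToTensor k A (A ⧸ 𝔪)
        ((RingHom.ker (algebraMap A (A ⧸ 𝔪))).toCotangent ⟨x, hxI⟩)) =
        a • ((1 : A ⧸ 𝔪) ⊗ₜ[A] ω) by
      rw [hω', ← TensorProduct.tmul_smul, hNa, TensorProduct.tmul_smul])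
    rw [map_smul, map_smul, ← LinearMap.comp_apply, hl, LinearMap.id_apply, ← hπ] at h
    exact h
  have h3 : t ^ N * x - a * π.1 ∈ 𝔪 ^ 2 := by
    rw [← map_smul, ← map_smul, Ideal.toCotangent_eq] at h2
    exact Ideal.pow_right_mono hker.le 2 (by simpa using h2)
  have htN : t ^ N ∉ 𝔪 := fun h => ht (Ideal.IsPrime.mem_of_pow_mem inferInstance N h)
  obtain ⟨u, i, hi, hui⟩ := Ideal.IsMaximal.exists_inv (inferInstance : 𝔪.IsMaximal) htN
  refine ⟨u * a, ?_⟩
  have e : x - u * a * π.1 = u * (t ^ N * x - a * π.1) + i * x := by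
    have : i = 1 - u * t ^ N := by rw [← hui]; ring
    rw [this]; ring
  rw [e]
  refine Ideal.add_mem _ (Ideal.mul_mem_left _ _ h3) ?_
  rw [pow_two]
  exact Ideal.mul_mem_mul hi hx

/-- If the cotangent space at `𝔪` is generated by one element, the maximal ideal of the
localisation at `𝔪` is principal (Nakayama). -/
theorem maximalIdeal_isPrincipal_of (A : Type u) [CommRing A] [IsNoetherianRing A]
    (𝔪 : Ideal A) [𝔪.IsPrime] (π : A) (hπ : π ∈ 𝔪)
    (h : ∀ x ∈ 𝔪, ∃ a : A, x - a * π ∈ 𝔪 ^ 2) :
    (IsLocalRing.maximalIdeal (Localization.AtPrime 𝔪)).IsPrincipal := by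
  have hM : Ideal.map (algebraMap A (Localization.AtPrime 𝔪)) 𝔪 =
      IsLocalRing.maximalIdeal (Localization.AtPrime 𝔪) :=
    Localization.AtPrime.map_eq_maximalIdeal
  have hle : IsLocalRing.maximalIdeal (Localization.AtPrime 𝔪) ≤
      Ideal.span {algebraMap A (Localization.AtPrime 𝔪) π} ⊔
        IsLocalRing.maximalIdeal (Localization.AtPrime 𝔪) •
          IsLocalRing.maximalIdeal (Localization.AtPrime 𝔪) := by
    rw [← hM, Ideal.map_le_iff_le_comap]
    intro x hx
    obtain ⟨a, ha⟩ := h x hx
    rw [Ideal.mem_comap]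
    have e : algebraMap A (Localization.AtPrime 𝔪) x =
        algebraMap A (Localization.AtPrime 𝔪) a * algebraMap A (Localization.AtPrime 𝔪) π +
          algebraMap A (Localization.AtPrime 𝔪) (x - a * π) := by
      simp [map_sub, map_mul]
    rw [e]
    refine Submodule.add_mem_sup (Ideal.mem_span_singleton'.mpr ⟨_, rfl⟩) ?_
    have h2 : algebraMap A (Localization.AtPrime 𝔪) (x - a * π) ∈
        Ideal.map (algebraMap A (Localization.AtPrime 𝔪)) (𝔪 ^ 2) := Ideal.mem_map_of_mem _ ha
    rwa [Ideal.map_pow, pow_two] at h2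
  have hfg : (IsLocalRing.maximalIdeal (Localization.AtPrime 𝔪) :
      Submodule (Localization.AtPrime 𝔪) (Localization.AtPrime 𝔪)).FG :=
    IsNoetherian.noetherian _
  have hle' := Submodule.le_of_le_smul_of_le_jacobson_bot hfg
    (IsLocalRing.jacobson_eq_maximalIdeal ⊥ bot_ne_top).ge hle
  refine ⟨⟨algebraMap A (Localization.AtPrime 𝔪) π, le_antisymm hle' ?_⟩⟩
  rw [Ideal.submodule_span_eq, Ideal.span_singleton_le_iff_mem, ← hM]
  exact Ideal.mem_map_of_mem _ hπ

/-- A noetherian domain whose localisations at maximal ideals are Dedekind is Dedekind. -/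
theorem isDedekindDomain_of_localization_maximal (A : Type u) [CommRing A] [IsDomain A]
    [IsNoetherianRing A]
    (h : ∀ (𝔪 : Ideal A) [𝔪.IsMaximal], IsDedekindDomain (Localization.AtPrime 𝔪)) :
    IsDedekindDomain A := by
  haveI : IsIntegrallyClosed A :=
    IsIntegrallyClosed.of_localization_maximal (fun p _ _ => by
      haveI := h p
      infer_instance)
  haveI : Ring.DimensionLEOne A := ⟨fun {P} hP hPprime => by
    obtain ⟨𝔪, h𝔪, hP𝔪⟩ := Ideal.exists_le_maximal P hPprime.ne_top
    haveI := h𝔪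
    haveI := h 𝔪
    have hdisj : Disjoint (𝔪.primeCompl : Set A) (P : Set A) :=
      Set.disjoint_left.mpr (fun x hx hxP => hx (hP𝔪 hxP))
    have hdisj𝔪 : Disjoint (𝔪.primeCompl : Set A) (𝔪 : Set A) :=
      Set.disjoint_left.mpr (fun x hx hxP => hx hxP)
    have hprime : (Ideal.map (algebraMap A (Localization.AtPrime 𝔪)) P).IsPrime :=
      IsLocalization.isPrime_of_isPrime_disjoint 𝔪.primeCompl _ P hPprime hdisj
    have hinj : Function.Injective (algebraMap A (Localization.AtPrime 𝔪)) :=
      IsLocalization.injective _ (Ideal.primeCompl_le_nonZeroDivisors 𝔪)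
    have hne : Ideal.map (algebraMap A (Localization.AtPrime 𝔪)) P ≠ ⊥ := by
      intro hbot
      apply hP
      rw [eq_bot_iff]
      intro x hx
      have : algebraMap A (Localization.AtPrime 𝔪) x ∈
          Ideal.map (algebraMap A (Localization.AtPrime 𝔪)) P := Ideal.mem_map_of_mem _ hx
      rw [hbot, Ideal.mem_bot] at this
      exact (map_eq_zero_iff _ hinj).mp this
    have hmax : (Ideal.map (algebraMap A (Localization.AtPrime 𝔪)) P).IsMaximal :=
      Ring.DimensionLEOne.maximalOfPrime hne hprime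
    have heq : Ideal.map (algebraMap A (Localization.AtPrime 𝔪)) P =
        Ideal.map (algebraMap A (Localization.AtPrime 𝔪)) 𝔪 := by
      rw [Localization.AtPrime.map_eq_maximalIdeal]
      exact IsLocalRing.eq_maximalIdeal hmax
    have h1 := IsLocalization.under_map_of_isPrime_disjoint 𝔪.primeCompl
      (Localization.AtPrime 𝔪) hPprime hdisj
    have h2 := IsLocalization.under_map_of_isPrime_disjoint 𝔪.primeCompl
      (Localization.AtPrime 𝔪) h𝔪.isPrime hdisj𝔪
    rw [heq, h2] at h1
    exact h1 ▸ h𝔪⟩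
  exact {}

/-- **Smooth curves are Dedekind.** A domain which is locally standard smooth of relative
dimension one over an algebraically closed field is a Dedekind domain. -/
theorem isDedekindDomain_of_locally_isStandardSmoothOfRelativeDimension_one
    (k : Type u) [Field k] [IsAlgClosed k] (A : Type u) [CommRing A] [Algebra k A] [IsDomain A]
    (h : RingHom.Locally (RingHom.IsStandardSmoothOfRelativeDimension 1) (algebraMap k A)) :
    IsDedekindDomain A := by
  have hsm : (algebraMap k A).Smooth :=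
    RingHom.smooth_iff_locally_isStandardSmooth.mpr
      (RingHom.locally_of_locally (fun hf => hf.isStandardSmooth) h)
  haveI : Algebra.Smooth k A := RingHom.smooth_algebraMap.mp hsm
  haveI : Algebra.FiniteType k A := inferInstance
  haveI : IsNoetherianRing A := Algebra.FiniteType.isNoetherianRing k A
  obtain ⟨s, hs, hP⟩ := h
  refine isDedekindDomain_of_localization_maximal A (fun 𝔪 _ => ?_)
  obtain ⟨t, hts, ht⟩ : ∃ t ∈ s, t ∉ 𝔪 := by
    by_contra hcon
    have hcon' : s ⊆ (𝔪 : Set A) := fun x hx => by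
      by_contra hx'
      exact hcon ⟨x, hx, hx'⟩
    have : Ideal.span s ≤ 𝔪 := Ideal.span_le.mpr hcon'
    rw [hs] at this
    exact (Ideal.IsMaximal.ne_top inferInstance) (top_le_iff.mp this)
  have hPt := hP t hts
  rw [← IsScalarTower.algebraMap_eq,
    RingHom.isStandardSmoothOfRelativeDimension_algebraMap] at hPt
  haveI := hPt
  obtain ⟨π, hπ, hgen⟩ := exists_cotangent_generator k A 𝔪 t ht
  have hprinc := maximalIdeal_isPrincipal_of A 𝔪 π hπ hgen
  exact ((tfae_of_isNoetherianRing_of_isLocalRing_of_isDomain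
    (Localization.AtPrime 𝔪)).out 4 2).mp hprinc

/-- A maximal ideal of a finitely generated algebra over an algebraically closed field is the
kernel of a `k`-point. -/
theorem exists_algHom_ker_eq (k : Type u) [Field k] [IsAlgClosed k] (A : Type u)
    [CommRing A] [Algebra k A] [Algebra.FiniteType k A] (𝔪 : Ideal A) [𝔪.IsMaximal] :
    ∃ φ : A →ₐ[k] k, RingHom.ker φ = 𝔪 := by
  have hbij := algebraMap_quotient_bijective k A 𝔪
  let e : k ≃ₐ[k] A ⧸ 𝔪 := AlgEquiv.ofBijective (Algebra.ofId k (A ⧸ 𝔪)) hbij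
  refine ⟨e.symm.toAlgHom.comp (Ideal.Quotient.mkₐ k 𝔪), ?_⟩
  ext x
  simp only [RingHom.mem_ker, AlgHom.coe_comp, Function.comp_apply]
  constructor
  · intro h
    have h' : Ideal.Quotient.mkₐ k 𝔪 x = 0 := by
      have := congrArg e h
      simpa using this
    exact Ideal.Quotient.eq_zero_iff_mem.mp h'
  · intro h
    have h' : Ideal.Quotient.mkₐ k 𝔪 x = 0 := Ideal.Quotient.eq_zero_iff_mem.mpr h
    rw [h']
    simp

/-- Over an algebraically closed field, the tensor product of a finitely generated domain with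
any domain is a domain (Nullstellensatz argument). -/
theorem isDomain_tensorProduct (k : Type u) [Field k] [IsAlgClosed k] (A : Type u)
    [CommRing A] [Algebra k A] [Algebra.FiniteType k A] [IsDomain A]
    (B : Type u) [CommRing B] [Algebra k B] [IsDomain B] : IsDomain (A ⊗[k] B) := by
  classical
  haveI : IsJacobsonRing A := isJacobsonRing_of_finiteType (A := k) (B := A)
  let b : Module.Basis (Module.Free.ChooseBasisIndex k B) k B := Module.Free.chooseBasis k B
  let ψ : (A →ₐ[k] k) → (A ⊗[k] B →ₐ[k] B) := fun φ =>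
    Algebra.TensorProduct.lift ((Algebra.ofId k B).comp φ) (AlgHom.id k B)
      (fun _ _ => Commute.all _ _)
  have hψ : ∀ (φ : A →ₐ[k] k) (x : A ⊗[k] B) (i : Module.Free.ChooseBasisIndex k B),
      b.repr (ψ φ x) i = φ ((Algebra.TensorProduct.basis A b).repr x i) := by
    intro φ x i
    induction x using TensorProduct.induction_on with
    | zero => simp
    | tmul a m =>
      have h1 : ψ φ (a ⊗ₜ[k] m) = φ a • m := by
        simp only [ψ, Algebra.TensorProduct.lift_tmul, AlgHom.coe_comp, Function.comp_apply,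
          AlgHom.coe_id, id_eq, Algebra.ofId_apply, Algebra.smul_def]
      rw [h1, Algebra.TensorProduct.basis_repr_tmul]
      simp [Finsupp.mapRange_apply]
    | add x y hx hy =>
      simp only [map_add, Finsupp.add_apply, hx, hy]
  have hJ : (⊥ : Ideal A).jacobson = ⊥ :=
    (Ideal.radical_eq_jacobson ⊥).symm.trans Ideal.radical_bot_of_isReduced
  haveI : Nontrivial (A ⊗[k] B) := by
    obtain ⟨𝔪, h𝔪⟩ := Ideal.exists_maximal A
    haveI := h𝔪
    obtain ⟨φ, -⟩ := exists_algHom_ker_eq k A 𝔪
    exact (ψ φ).toRingHom.domain_nontrivial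
  haveI : NoZeroDivisors (A ⊗[k] B) := ⟨fun {x y} hxy => by
    by_contra hcon
    have hx : x ≠ 0 := fun h => hcon (Or.inl h)
    have hy : y ≠ 0 := fun h => hcon (Or.inr h)
    have hx' : (Algebra.TensorProduct.basis A b).repr x ≠ 0 := by simpa using hx
    have hy' : (Algebra.TensorProduct.basis A b).repr y ≠ 0 := by simpa using hy
    obtain ⟨i₀, hi₀⟩ := Finsupp.ne_iff.mp hx'
    obtain ⟨j₀, hj₀⟩ := Finsupp.ne_iff.mp hy'
    have hmem : (Algebra.TensorProduct.basis A b).repr x i₀ *
        (Algebra.TensorProduct.basis A b).repr y j₀ ∈ (⊥ : Ideal A).jacobson := by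
      rw [Ideal.jacobson, Ideal.mem_sInf]
      rintro 𝔪 ⟨-, h𝔪⟩
      haveI := h𝔪
      obtain ⟨φ, hφ⟩ := exists_algHom_ker_eq k A 𝔪
      have h0 : ψ φ x * ψ φ y = 0 := by rw [← map_mul, hxy, map_zero]
      rcases mul_eq_zero.mp h0 with h | h
      · have h1 : φ ((Algebra.TensorProduct.basis A b).repr x i₀) = 0 := by
          rw [← hψ, h]; simp
        exact 𝔪.mul_mem_right _ (hφ.le (RingHom.mem_ker.mpr h1))
      · have h1 : φ ((Algebra.TensorProduct.basis A b).repr y j₀) = 0 := by
          rw [← hψ, h]; simp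
        exact 𝔪.mul_mem_left _ (hφ.le (RingHom.mem_ker.mpr h1))
    rw [hJ, Ideal.mem_bot] at hmem
    exact mul_ne_zero (by simpa using hi₀) (by simpa using hj₀) hmem⟩
  exact NoZeroDivisors.to_isDomain _

/-- Finite type from locally standard smooth. -/
theorem finiteType_of_locally_isStandardSmoothOfRelativeDimension
    (k : Type u) [CommRing k] (A : Type u) [CommRing A] [Algebra k A] (n : ℕ)
    (h : RingHom.Locally (RingHom.IsStandardSmoothOfRelativeDimension n) (algebraMap k A)) :
    Algebra.FiniteType k A := by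
  have hsm : (algebraMap k A).Smooth :=
    RingHom.smooth_iff_locally_isStandardSmooth.mpr
      (RingHom.locally_of_locally (fun hf => hf.isStandardSmooth) h)
  haveI : Algebra.Smooth k A := RingHom.smooth_algebraMap.mp hsm
  infer_instance

/-- Base change of "locally standard smooth of relative dimension `n`". -/
theorem locally_isStandardSmoothOfRelativeDimension_baseChange
    (k : Type u) [CommRing k] (A : Type u) [CommRing A] [Algebra k A] (n : ℕ)
    (h : RingHom.Locally (RingHom.IsStandardSmoothOfRelativeDimension n) (algebraMap k A))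
    (κ : Type u) [CommRing κ] [Algebra k κ] :
    RingHom.Locally (RingHom.IsStandardSmoothOfRelativeDimension n)
      (algebraMap κ (κ ⊗[k] A)) := by
  letI : Algebra A (κ ⊗[k] A) := Algebra.TensorProduct.rightAlgebra
  haveI : Algebra.IsPushout k A κ (κ ⊗[k] A) := TensorProduct.isPushout'
  exact RingHom.locally_isStableUnderBaseChange
    RingHom.isStandardSmoothOfRelativeDimension_respectsIso
    (RingHom.isStandardSmoothOfRelativeDimension_isStableUnderBaseChange n)
    k A κ (κ ⊗[k] A) h

/-- **Geometric fibres of a smooth curve are Dedekind.**  If `A` is a domain, locally standard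
smooth of relative dimension one over an algebraically closed field `k`, and `κ` is an
algebraically closed extension of `k`, then `κ ⊗[k] A` is a Dedekind domain. -/
theorem isDedekindDomain_tensorProduct
    (k : Type u) [Field k] [IsAlgClosed k] (A : Type u) [CommRing A] [Algebra k A] [IsDomain A]
    (h : RingHom.Locally (RingHom.IsStandardSmoothOfRelativeDimension 1) (algebraMap k A))
    (κ : Type u) [Field κ] [IsAlgClosed κ] [Algebra k κ] :
    IsDedekindDomain (κ ⊗[k] A) := by
  haveI : Algebra.FiniteType k A :=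
    finiteType_of_locally_isStandardSmoothOfRelativeDimension k A 1 h
  haveI : IsDomain (A ⊗[k] κ) := isDomain_tensorProduct k A κ
  haveI : IsDomain (κ ⊗[k] A) :=
    MulEquiv.isDomain (A ⊗[k] κ) (Algebra.TensorProduct.comm k κ A).toMulEquiv
  exact isDedekindDomain_of_locally_isStandardSmoothOfRelativeDimension_one κ (κ ⊗[k] A)
    (locally_isStandardSmoothOfRelativeDimension_baseChange k A 1 h κ)

/-- The domain part of the previous statement. -/
theorem isDomain_tensorProduct_left
    (k : Type u) [Field k] [IsAlgClosed k] (A : Type u) [CommRing A] [Algebra k A] [IsDomain A]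
    [Algebra.FiniteType k A] (κ : Type u) [CommRing κ] [IsDomain κ] [Algebra k κ] :
    IsDomain (κ ⊗[k] A) := by
  haveI : IsDomain (A ⊗[k] κ) := isDomain_tensorProduct k A κ
  exact MulEquiv.isDomain (A ⊗[k] κ) (Algebra.TensorProduct.comm k κ A).toMulEquiv

end Fermat.Agent.S25.CONN.Fac.SmDed
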